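/-
P-DIM (S20), subtasks AS-4a / AS-4b (helper51): weights of a free generating system.
-/
import Fermat.Agent.H19.Gens
import Fermat.Agent.H7.DimBridge

set_option autoImplicit false

namespace Fermat.Agent.H51

open UpperHalfPlane ModularForm CongruenceSubgroup Fermat.Agent.H19 Fermat.Agent.H7
open scoped MatrixGroups Manifold

/-- the constant function `1` is not the zero function on `ℍ` -/
lemma const_ne_zero_fun {c : ℂ} (hc : c ≠ 0) : (fun _ : ℍ => c) ≠ 0 := by
  intro h
  exact hc (congrFun h UpperHalfPlane.I)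

/-- A generator of a free generating system is nonzero. -/
theorem IsGens.ne_zero {N : ℕ} [NeZero N] {J : Type} {k : J → ℤ} {f : J → ℍ → ℂ}
    (h : IsGens N J k f) (j : J) : f j ≠ 0 := by
  classical
  intro hf
  have h1 := h.uniq (k j) {j} (fun _ => fun _ => (1 : ℂ))
    (by
      intro j' hj'
      rw [Finset.mem_singleton] at hj'
      subst hj'
      exact IsMF.weight_cast (by ring) (IsMF.const 1 1))
    (by rw [Finset.sum_singleton, hf, mul_zero])
    j (Finset.mem_singleton_self j)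
  exact const_ne_zero_fun one_ne_zero h1

theorem IsGens.even_weight {N : ℕ} [NeZero N] {J : Type} {k : J → ℤ} {f : J → ℍ → ℂ}
    (h : IsGens N J k f) (j : J) : Even (k j) := by
  by_contra hne
  exact IsGens.ne_zero h j (IsMF.eq_zero_of_odd (Int.not_even_iff_odd.mp hne) (h.isMF j))

theorem IsGens.exists_weight_zero {N : ℕ} [NeZero N] {J : Type} {k : J → ℤ} {f : J → ℍ → ℂ}
    (h : IsGens N J k f) : ∃ j, k j = 0 := by
  classical
  by_contra hne
  push Not at hne
  obtain ⟨s, r, hr, hsum⟩ := h.gen 0 (fun _ => (1 : ℂ)) (IsMF.const N 1)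
  have hr0 : ∀ j ∈ s, r j = 0 := by
    intro j hj
    have hlt : (0 : ℤ) - k j < 0 := by
      have := h.nonneg j
      have := hne j
      omega
    exact IsMF.eq_zero_of_neg hlt (hr j hj)
  have : (fun _ : ℍ => (1 : ℂ)) = 0 := by
    rw [hsum]
    exact Finset.sum_eq_zero fun j hj => by rw [hr0 j hj, zero_mul]
  exact const_ne_zero_fun one_ne_zero this

theorem IsGens.weight_zero_unique {N : ℕ} [NeZero N] {J : Type} {k : J → ℤ} {f : J → ℍ → ℂ}
    (h : IsGens N J k f) {j₁ j₂ : J} (h₁ : k j₁ = 0) (h₂ : k j₂ = 0) : j₁ = j₂ := by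
  classical
  by_contra hne
  obtain ⟨c₁, hc₁⟩ := IsMF.eq_const_of_weight_zero (IsMF.weight_cast h₁ (h.isMF j₁))
  obtain ⟨c₂, hc₂⟩ := IsMF.eq_const_of_weight_zero (IsMF.weight_cast h₂ (h.isMF j₂))
  have hc₁0 : c₁ ≠ 0 := by
    rintro rfl
    exact IsGens.ne_zero h j₁ (by rw [hc₁]; rfl)
  let r : J → ℍ → ℂ := fun j => if j = j₁ then (fun _ => c₂) else (fun _ => -c₁)
  have hr : ∀ j ∈ ({j₁, j₂} : Finset J), IsMF 1 (0 - k j) (r j) := by
    intro j hj
    rw [Finset.mem_insert, Finset.mem_singleton] at hj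
    rcases hj with rfl | rfl
    · simp only [r, if_true]
      exact IsMF.weight_cast (by rw [h₁]; ring) (IsMF.const 1 c₂)
    · have : ¬ (j = j₁) := fun e => hne e.symm
      simp only [r, if_neg this]
      exact IsMF.weight_cast (by rw [h₂]; ring) (IsMF.const 1 (-c₁))
  have hsum : ∑ j ∈ ({j₁, j₂} : Finset J), r j * f j = 0 := by
    rw [Finset.sum_pair hne]
    have : ¬ (j₂ = j₁) := fun e => hne e.symm
    simp only [r, if_true, if_neg this]
    rw [hc₁, hc₂]
    funext z
    simp only [Pi.add_apply, Pi.mul_apply, Pi.zero_apply]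
    ring
  have h0 := h.uniq 0 {j₁, j₂} r hr hsum j₂ (by simp)
  have : ¬ (j₂ = j₁) := fun e => hne e.symm
  simp only [r, if_neg this] at h0
  exact const_ne_zero_fun (neg_ne_zero.mpr hc₁0) h0

theorem IsGens.card_weight_zero {N : ℕ} [NeZero N] {k : Q N → ℤ} {f : Q N → ℍ → ℂ}
    (h : IsGens N (Q N) k f) : (Finset.univ.filter fun j => k j = 0).card = 1 := by
  obtain ⟨j₀, hj₀⟩ := IsGens.exists_weight_zero h
  rw [Finset.card_eq_one]
  refine ⟨j₀, ?_⟩
  ext j
  simp only [Finset.mem_filter, Finset.mem_univ, true_and, Finset.mem_singleton]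
  constructor
  · intro hj
    exact IsGens.weight_zero_unique h hj hj₀
  · rintro rfl
    exact hj₀

theorem weight_le_ten {N : ℕ} [NeZero N] {k : Q N → ℤ} {f : Q N → ℍ → ℂ}
    (h : IsGens N (Q N) k f) (g : Q N → ℍ → ℂ) (hg : ∀ j, IsCF N (12 - k j) (g j))
    (hgne : ∀ j, g j ≠ 0) (j : Q N) : k j ≤ 10 := by
  by_contra hlt
  push Not at hlt
  obtain ⟨m, hm⟩ := IsGens.even_weight h j
  have h12 : 12 - k j ≤ 0 := by omega
  exact hgne j (IsCF.eq_zero_of_nonpos h12 (hg j))

theorem finrank_CFsub_two {N : ℕ} [NeZero N] {k : Q N → ℤ} (hk : ∀ j, k j ≤ 10)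
    (g : Q N → ℍ → ℂ) (hg : ∀ j, IsCF N (12 - k j) (g j))
    (hspan : ∀ (K : ℤ) (ψ : ℍ → ℂ), IsCF N K ψ → ∃ r : Q N → ℍ → ℂ,
      (∀ j, IsMF 1 (K - 12 + k j) (r j)) ∧ ψ = ∑ j, r j * g j)
    (huniq : ∀ (K : ℤ) (r : Q N → ℍ → ℂ), (∀ j, IsMF 1 (K - 12 + k j) (r j)) →
      ∑ j, r j * g j = 0 → ∀ j, r j = 0) :
    Module.finrank ℂ (H7.CFsub N 2) = (Finset.univ.filter fun j => k j = 10).card := by
  classical
  -- the linear map from coefficient vectors
  have hgmem : ∀ j : {j : Q N // k j = 10}, g j.1 ∈ H7.CFsub N 2 := by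
    intro j
    exact IsCF.weight_cast (by rw [j.2]; norm_num) (hg j.1)
  let L : ({j : Q N // k j = 10} → ℂ) →ₗ[ℂ] H7.CFsub N 2 :=
    { toFun := fun c => ∑ j, c j • (⟨g j.1, hgmem j⟩ : H7.CFsub N 2)
      map_add' := by
        intro c d
        simp only [Pi.add_apply, add_smul, Finset.sum_add_distrib]
      map_smul' := by
        intro a c
        simp only [Pi.smul_apply, smul_eq_mul, RingHom.id_apply, Finset.smul_sum, mul_smul] }
  have hLval : ∀ c : {j : Q N // k j = 10} → ℂ,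
      ((L c : H7.CFsub N 2) : ℍ → ℂ) = ∑ j : {j : Q N // k j = 10}, c j • g j.1 := by
    intro c
    simp only [L, LinearMap.coe_mk, AddHom.coe_mk]
    rw [Submodule.coe_sum]
    rfl
  -- relate sums over the subtype with sums over `Q N`
  have hsumr : ∀ c : {j : Q N // k j = 10} → ℂ,
      (∑ j : Q N, (if hj : k j = 10 then (fun _ : ℍ => c ⟨j, hj⟩) else 0) * g j)
        = ∑ j : {j : Q N // k j = 10}, c j • g j.1 := by
    intro c
    have h1 : (∑ j : Q N, (if hj : k j = 10 then (fun _ : ℍ => c ⟨j, hj⟩) else 0) * g j)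
        = ∑ j ∈ Finset.univ.filter (fun j => k j = 10),
          (if hj : k j = 10 then (fun _ : ℍ => c ⟨j, hj⟩) else 0) * g j := by
      rw [Finset.sum_filter]
      refine Finset.sum_congr rfl fun j _ => ?_
      by_cases hj : k j = 10
      · simp [hj]
      · simp [hj]
    rw [h1, Finset.sum_subtype (Finset.univ.filter fun j => k j = 10) (p := fun j => k j = 10)
      (by simp)]
    refine Finset.sum_congr rfl fun j _ => ?_
    rw [dif_pos j.2]
    funext z
    simp
  have hrMF : ∀ c : {j : Q N // k j = 10} → ℂ, ∀ j : Q N,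
      IsMF 1 (2 - 12 + k j) (if hj : k j = 10 then (fun _ : ℍ => c ⟨j, hj⟩) else 0) := by
    intro c j
    by_cases hj : k j = 10
    · rw [dif_pos hj]
      exact IsMF.weight_cast (by rw [hj]; norm_num) (IsMF.const 1 _)
    · rw [dif_neg hj]
      exact IsMF.zero
  have hinj : Function.Injective L := by
    rw [← LinearMap.ker_eq_bot, LinearMap.ker_eq_bot']
    intro c hc
    have hc' : ((L c : H7.CFsub N 2) : ℍ → ℂ) = 0 := by rw [hc]; rfl
    rw [hLval, ← hsumr] at hc'
    have h0 := huniq 2 _ (hrMF c) hc'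
    funext j
    have := h0 j.1
    rw [dif_pos j.2] at this
    exact congrFun this UpperHalfPlane.I
  have hsurj : Function.Surjective L := by
    intro ψ
    obtain ⟨r, hr, hψ⟩ := hspan 2 ψ.1 ψ.2
    -- each `r j` is a constant (weight 0) or zero (negative weight)
    have hconst : ∀ j : Q N, ∃ a : ℂ, r j = fun _ => a := by
      intro j
      rcases (hk j).lt_or_eq with hlt | heq
      · exact ⟨0, IsMF.eq_zero_of_neg (by omega) (hr j)⟩
      · exact IsMF.eq_const_of_weight_zero (IsMF.weight_cast (by rw [heq]; norm_num) (hr j))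
    have hzero : ∀ j : Q N, k j ≠ 10 → r j = 0 := by
      intro j hj
      have hlt : k j < 10 := lt_of_le_of_ne (hk j) hj
      exact IsMF.eq_zero_of_neg (by omega) (hr j)
    choose a ha using hconst
    refine ⟨fun j => a j.1, ?_⟩
    apply Subtype.ext
    rw [hLval, ← hsumr, hψ]
    refine Finset.sum_congr rfl fun j _ => ?_
    by_cases hj : k j = 10
    · rw [dif_pos hj, ha j]
    · rw [dif_neg hj, hzero j hj]
  have e : ({j : Q N // k j = 10} → ℂ) ≃ₗ[ℂ] H7.CFsub N 2 :=
    LinearEquiv.ofBijective L ⟨hinj, hsurj⟩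
  rw [← e.finrank_eq, Module.finrank_fintype_fun_eq_card, Fintype.card_subtype]

end Fermat.Agent.H51
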